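import Fermat.Agent.Root.SummaryKroneckerLimit
import Mathlib.NumberTheory.Real.Irrational

/-!
# Lattice points and circles

No two lattice points are equidistant from `(√2, 1/3)`, which gives Steinhaus's theorem. Schinzel's
circles have centre `(1/2, 0)` or `(1/3, 0)` and radius a power of `√5` over `2` or `3`; their
points are counted with Jacobi's formula for the representations by two squares.
-/

set_option autoImplicit false

open Finset

namespace FA.LatticeCircles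

/-- The squared distance from `(√2, 1/3)`. -/
noncomputable def sqDist (v : ℤ × ℤ) : ℝ := ((v.1 : ℝ) - √2) ^ 2 + ((v.2 : ℝ) - 1 / 3) ^ 2

theorem sqDist_injective : Function.Injective sqDist := by
  intro v w h
  have h2 : √2 ^ 2 = (2 : ℝ) := Real.sq_sqrt (by norm_num)
  have e : 6 * ((w.1 - v.1 : ℤ) : ℝ) * √2 =
      ((3 * (w.1 ^ 2 - v.1 ^ 2) + 3 * (w.2 ^ 2 - v.2 ^ 2) - 2 * (w.2 - v.2) : ℤ) : ℝ) := by
    simp only [sqDist] at h
    push_cast
    linear_combination 3 * h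
  have h1 : v.1 = w.1 := by
    by_contra hne
    have hirr : Irrational (((6 * (w.1 - v.1) : ℤ) : ℝ) * √2) :=
      irrational_sqrt_two.intCast_mul (by omega)
    refine hirr ⟨((3 * (w.1 ^ 2 - v.1 ^ 2) + 3 * (w.2 ^ 2 - v.2 ^ 2) - 2 * (w.2 - v.2) : ℤ) : ℚ),
      ?_⟩
    rw [Rat.cast_intCast, ← e]
    push_cast
    ring
  have e' : (v.2 - w.2) * (3 * v.2 + 3 * w.2 - 2) = 0 := by
    rw [h1, sub_self, Int.cast_zero, mul_zero, zero_mul, eq_comm, Int.cast_eq_zero] at e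
    linear_combination -e
  rcases mul_eq_zero.1 e' with h3 | h3
  · exact Prod.ext h1 (by omega)
  · omega

theorem sublevel_finite (t : ℝ) : {v | sqDist v < t}.Finite := by
  obtain ⟨B, hB⟩ := exists_nat_gt (|t| + 5)
  refine ((Set.finite_Icc (-(B : ℤ)) B).prod (Set.finite_Icc (-(B : ℤ)) B)).subset fun v hv => ?_
  have hv' : ((v.1 : ℝ) - √2) ^ 2 + ((v.2 : ℝ) - 1 / 3) ^ 2 < t := hv
  have hs : √2 ≤ 2 := Real.sqrt_le_iff.2 ⟨by norm_num, by norm_num⟩
  have hs0 := Real.sqrt_nonneg 2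
  have key : ∀ z c : ℝ, 0 ≤ c → c ≤ 2 → (z - c) ^ 2 < t → -(B : ℝ) ≤ z ∧ z ≤ B := by
    intro z c hc0 hc2 hz
    have := le_abs_self t
    constructor <;> nlinarith [sq_nonneg (z - c - 1), sq_nonneg (z - c + 1)]
  have h1 := key v.1 √2 hs0 hs (by nlinarith [sq_nonneg ((v.2 : ℝ) - 1 / 3)])
  have h2 := key v.2 (1 / 3) (by norm_num) (by norm_num) (by nlinarith [sq_nonneg ((v.1 : ℝ) - √2)])
  exact ⟨⟨by exact_mod_cast h1.1, by exact_mod_cast h1.2⟩, by exact_mod_cast h2.1,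
    by exact_mod_cast h2.2⟩

theorem exists_least {S : Set (ℤ × ℤ)} (hS : S.Nonempty) :
    ∃ v ∈ S, ∀ w ∈ S, sqDist v ≤ sqDist w := by
  obtain ⟨u, hu⟩ := hS
  obtain ⟨v, ⟨hvS, hvu⟩, hmin⟩ := Set.exists_min_image {w | w ∈ S ∧ sqDist w < sqDist u + 1} sqDist
    ((sublevel_finite (sqDist u + 1)).subset fun w hw => hw.2) ⟨u, hu, lt_add_one _⟩
  refine ⟨v, hvS, fun w hw => ?_⟩
  rcases lt_or_ge (sqDist w) (sqDist u + 1) with h | h
  · exact hmin w ⟨hw, h⟩
  · linarith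

/-- Some point has exactly `n` points nearer to `(√2, 1/3)`. -/
theorem exists_rank (n : ℕ) : ∃ v, {w | sqDist w < sqDist v}.ncard = n := by
  induction n with
  | zero =>
    obtain ⟨v, -, hv⟩ := exists_least (S := Set.univ) Set.univ_nonempty
    refine ⟨v, ?_⟩
    rw [Set.ncard_eq_zero (sublevel_finite _), Set.eq_empty_iff_forall_notMem]
    exact fun w hw => absurd hw (not_lt.2 (hv w trivial))
  | succ n ih =>
    obtain ⟨v, hv⟩ := ih
    have hne : {w | sqDist v < sqDist w}.Nonempty := by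
      by_contra he
      rw [Set.not_nonempty_iff_eq_empty, Set.eq_empty_iff_forall_notMem] at he
      refine Set.infinite_univ.not_finite ((sublevel_finite (sqDist v + 1)).subset
        fun w _ => ?_)
      show sqDist w < sqDist v + 1
      exact (not_lt.1 fun h => he w h).trans_lt (lt_add_one _)
    obtain ⟨u, hu, hmin⟩ := exists_least hne
    refine ⟨u, ?_⟩
    have hset : {w | sqDist w < sqDist u} = insert v {w | sqDist w < sqDist v} := by
      ext w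
      rw [Set.mem_insert_iff, Set.mem_ofPred_eq, Set.mem_ofPred_eq]
      constructor
      · intro hw
        rcases lt_trichotomy (sqDist w) (sqDist v) with h | h | h
        · exact Or.inr h
        · exact Or.inl (sqDist_injective h)
        · exact absurd (hmin w h) (not_le.2 hw)
      · rintro (rfl | h)
        exacts [hu, h.trans hu]
    rw [hset, Set.ncard_insert_of_notMem (s := {w | sqDist w < sqDist v})
      (fun h => lt_irrefl (sqDist v) h) (sublevel_finite (sqDist v)), hv]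

/-- Steinhaus. -/
theorem steinhaus (n : ℕ) : ∃ a b r : ℝ, 0 < r ∧
    {v : ℤ × ℤ | ((v.1 : ℝ) - a) ^ 2 + ((v.2 : ℝ) - b) ^ 2 < r ^ 2}.ncard = n := by
  obtain ⟨v, hv⟩ := exists_rank n
  have hpos : 0 < sqDist v := by
    rw [sqDist]
    have h : (v.2 : ℝ) - 1 / 3 ≠ 0 := fun h => by
      have h' : (3 * v.2 : ℝ) = 1 := by linarith
      have : 3 * v.2 = 1 := by exact_mod_cast h'
      omega
    positivity
  refine ⟨√2, 1 / 3, √(sqDist v), Real.sqrt_pos.2 hpos, ?_⟩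
  rw [Real.sq_sqrt hpos.le]
  exact hv

theorem card_squarePairs_five_pow (j : ℕ) :
    {v : ℤ × ℤ | v.1 ^ 2 + v.2 ^ 2 = ((5 ^ j : ℕ) : ℤ)}.ncard = 4 * (j + 1) := by
  have h := FA.Summary.jacobi_two_squares (5 ^ j) (by positivity)
  rw [Nat.sum_divisors_prime_pow (by norm_num)] at h
  have e : ∀ i : ℕ, ZMod.χ₄ ((5 ^ i : ℕ) : ZMod 4) = 1 := fun i => by
    rw [Nat.cast_pow, show ((5 : ℕ) : ZMod 4) = 1 by decide, one_pow, map_one]
  rw [Finset.sum_congr rfl fun i _ => e i, Finset.sum_const, Finset.card_range, nsmul_eq_mul,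
    mul_one] at h
  exact_mod_cast h

theorem squarePairs_finite' (m : ℕ) : {v : ℤ × ℤ | v.1 ^ 2 + v.2 ^ 2 = (m : ℤ)}.Finite :=
  FA.KroneckerLimit.squarePairs_finite m

/-- Half of the representations of an odd number have an odd first entry. -/
theorem ncard_odd_even {m : ℕ} (hm : Odd m) :
    2 * {v : ℤ × ℤ | v.1 ^ 2 + v.2 ^ 2 = (m : ℤ) ∧ v.1 % 2 = 1}.ncard =
      {v : ℤ × ℤ | v.1 ^ 2 + v.2 ^ 2 = (m : ℤ)}.ncard := by
  set A := {v : ℤ × ℤ | v.1 ^ 2 + v.2 ^ 2 = (m : ℤ) ∧ v.1 % 2 = 1}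
  have hA : A.Finite := (squarePairs_finite' m).subset fun v hv => hv.1
  have hu : {v : ℤ × ℤ | v.1 ^ 2 + v.2 ^ 2 = (m : ℤ)} = A ∪ Prod.swap '' A := by
    have hpar : ∀ x y : ℤ, x ^ 2 + y ^ 2 = (m : ℤ) → (x + y) % 2 = 1 := fun x y h => by
      obtain ⟨c, hc⟩ := hm
      have : ((x + y) * (x + y)) % 2 = 1 := by
        rw [show (x + y) * (x + y) = 2 * (x * y + c) + 1 by subst hc; push_cast at h; linarith]
        omega
      rw [Int.mul_emod] at this
      rcases Int.emod_two_eq (x + y) with e | e <;> rw [e] at this ⊢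
      exact absurd this (by norm_num)
    ext ⟨x, y⟩
    simp only [A, Set.mem_ofPred_eq, Set.mem_union, Set.image_swap_eq_preimage_swap,
      Set.mem_preimage, Prod.swap_prod_mk]
    refine ⟨fun h => ?_, ?_⟩
    · have := hpar x y h
      by_cases hx : x % 2 = 1
      · exact Or.inl ⟨h, hx⟩
      · exact Or.inr ⟨by rw [← h]; ring, by omega⟩
    · rintro (⟨h, -⟩ | ⟨h, -⟩)
      exacts [h, by rw [← h]; ring]
  have hd : Disjoint A (Prod.swap '' A) := by
    rw [Set.disjoint_left]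
    rintro ⟨x, y⟩ ⟨h, hx⟩ ⟨⟨a, b⟩, ⟨-, ha⟩, e⟩
    simp only [Prod.swap_prod_mk, Prod.mk.injEq] at e
    obtain ⟨c, hc⟩ := hm
    have hy : y % 2 = 1 := by rw [← e.2]; exact ha
    have : (x ^ 2 + y ^ 2) % 2 = 0 := by
      simp only at hx
      rw [Int.add_emod, pow_two, pow_two, Int.mul_emod x, Int.mul_emod y, hx, hy]
      rfl
    simp only at h
    rw [h, hc] at this
    omega
  rw [hu, Set.ncard_union_eq hd hA (hA.image _), Set.ncard_image_of_injective A Prod.swap_injective]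
  ring

/-- A quarter of the representations of a number `≡ 1 (mod 3)` have `x ≡ 2`, `y ≡ 0 (mod 3)`. -/
theorem ncard_mod_three {m : ℕ} (hm : m % 3 = 1) :
    4 * {v : ℤ × ℤ | v.1 ^ 2 + v.2 ^ 2 = (m : ℤ) ∧ v.1 % 3 = 2 ∧ v.2 % 3 = 0}.ncard =
      {v : ℤ × ℤ | v.1 ^ 2 + v.2 ^ 2 = (m : ℤ)}.ncard := by
  set A := {v : ℤ × ℤ | v.1 ^ 2 + v.2 ^ 2 = (m : ℤ) ∧ v.1 % 3 = 2 ∧ v.2 % 3 = 0}
  set B := A ∪ Neg.neg '' A
  have hA : A.Finite := (squarePairs_finite' m).subset fun v hv => hv.1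
  have hB : B.Finite := hA.union (hA.image _)
  have hmem : ∀ x y : ℤ, (x, y) ∈ B ↔ x ^ 2 + y ^ 2 = (m : ℤ) ∧ x % 3 ≠ 0 ∧ y % 3 = 0 := by
    intro x y
    simp only [B, A, Set.mem_union, Set.mem_ofPred_eq, Set.image_neg_eq_neg, Set.mem_neg,
      Prod.fst_neg, Prod.snd_neg, neg_sq]
    omega
  have hu : {v : ℤ × ℤ | v.1 ^ 2 + v.2 ^ 2 = (m : ℤ)} = B ∪ Prod.swap '' B := by
    ext ⟨x, y⟩
    rw [Set.mem_ofPred_eq, Set.mem_union, Set.image_swap_eq_preimage_swap, Set.mem_preimage,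
      Prod.swap_prod_mk, hmem, hmem, add_comm (y ^ 2)]
    refine ⟨fun h => ?_, fun h => h.elim And.left And.left⟩
    have hz : (x ^ 2 + y ^ 2) % 3 = 1 := by
      rw [h]
      omega
    rw [Int.add_emod, pow_two, pow_two, Int.mul_emod x, Int.mul_emod y] at hz
    have hx3 : x % 3 = 0 ∨ x % 3 = 1 ∨ x % 3 = 2 := by omega
    have hy3 : y % 3 = 0 ∨ y % 3 = 1 ∨ y % 3 = 2 := by omega
    rcases hx3 with e | e | e <;> rcases hy3 with e' | e' | e' <;> rw [e, e'] at hz <;>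
      first | omega | exact Or.inl ⟨h, by omega, e'⟩ | exact Or.inr ⟨h, by omega, e⟩
  have hd : Disjoint B (Prod.swap '' B) := by
    rw [Set.disjoint_left, Set.image_swap_eq_preimage_swap]
    rintro ⟨x, y⟩ h h'
    rw [hmem] at h
    rw [Set.mem_preimage, Prod.swap_prod_mk, hmem] at h'
    exact h.2.1 h'.2.2
  have hd' : Disjoint A (Neg.neg '' A) := by
    rw [Set.disjoint_left, Set.image_neg_eq_neg]
    rintro ⟨x, y⟩ ⟨-, h, -⟩ h'
    simp only [A, Set.mem_neg, Set.mem_ofPred_eq, Prod.fst_neg] at h'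
    simp only at h
    omega
  rw [hu, Set.ncard_union_eq hd hB (hB.image _), Set.ncard_image_of_injective B Prod.swap_injective,
    Set.ncard_union_eq hd' hA (hA.image _), Set.ncard_image_of_injective A neg_injective]
  ring

/-- Schinzel. -/
theorem schinzel (n : ℕ) : ∃ a b r : ℝ, 0 < r ∧
    {v : ℤ × ℤ | ((v.1 : ℝ) - a) ^ 2 + ((v.2 : ℝ) - b) ^ 2 = r ^ 2}.ncard = n := by
  rcases Nat.even_or_odd' n with ⟨k, rfl | rfl⟩
  · rcases Nat.eq_zero_or_pos k with rfl | hk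
    · refine ⟨1 / 2, 0, 1 / 4, by norm_num, ?_⟩
      rw [Set.ncard_eq_zero (Set.Finite.subset Set.finite_empty ?_)] <;>
        [rw [Set.eq_empty_iff_forall_notMem]; skip] <;> intro v hv <;>
        simp only [Set.mem_ofPred_eq] at hv <;> exfalso
      all_goals
        have h' : ((4 * (2 * v.1 - 1) ^ 2 + 16 * v.2 ^ 2 : ℤ) : ℝ) = ((1 : ℤ) : ℝ) := by
          push_cast
          linear_combination 16 * hv
        have h2 : 4 * (2 * v.1 - 1) ^ 2 + 16 * v.2 ^ 2 = 1 := Int.cast_inj.1 h'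
        omega
    obtain ⟨j, rfl⟩ : ∃ j, k = j + 1 := ⟨k - 1, by omega⟩
    refine ⟨1 / 2, 0, √((5 : ℝ) ^ j) / 2, by positivity, ?_⟩
    have hm : Odd (5 ^ j) := (by decide : Odd 5).pow
    have h := ncard_odd_even hm
    rw [card_squarePairs_five_pow] at h
    suffices he : (fun v : ℤ × ℤ => (2 * v.1 - 1, 2 * v.2)) ''
        {v : ℤ × ℤ | ((v.1 : ℝ) - 1 / 2) ^ 2 + ((v.2 : ℝ) - 0) ^ 2 = (√((5 : ℝ) ^ j) / 2) ^ 2} =
        {v : ℤ × ℤ | v.1 ^ 2 + v.2 ^ 2 = ((5 ^ j : ℕ) : ℤ) ∧ v.1 % 2 = 1} by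
      rw [← he, Set.ncard_image_of_injective] at h
      · omega
      · intro v w e
        simp only [Prod.mk.injEq] at e
        exact Prod.ext (by omega) (by omega)
    ext ⟨x, y⟩
    simp only [Set.mem_image, Set.mem_ofPred_eq, Prod.mk.injEq, div_pow,
      Real.sq_sqrt (show (0 : ℝ) ≤ 5 ^ j by positivity)]
    constructor
    · rintro ⟨⟨a, b⟩, hab, rfl, rfl⟩
      refine ⟨?_, by omega⟩
      rw [← @Int.cast_inj ℝ]
      push_cast
      linear_combination 4 * hab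
    · rintro ⟨hxy, hx⟩
      have hy : y % 2 = 0 := by
        by_contra hy
        have h5 : (x ^ 2 + y ^ 2) % 2 = 1 := by
          rw [hxy]
          obtain ⟨c, hc⟩ := hm
          rw [hc]
          omega
        rw [Int.add_emod, pow_two, pow_two, Int.mul_emod x, Int.mul_emod y, hx,
          show y % 2 = 1 by omega] at h5
        exact absurd h5 (by decide)
      obtain ⟨a, rfl⟩ : ∃ a, x = 2 * a - 1 := ⟨(x + 1) / 2, by omega⟩
      obtain ⟨b, rfl⟩ : ∃ b, y = 2 * b := ⟨y / 2, by omega⟩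
      refine ⟨⟨a, b⟩, ?_, rfl, rfl⟩
      rw [← @Int.cast_inj ℝ] at hxy
      push_cast at hxy
      linear_combination hxy / 4
  · refine ⟨1 / 3, 0, √((5 : ℝ) ^ (2 * k)) / 3, by positivity, ?_⟩
    have hm : 5 ^ (2 * k) % 3 = 1 := by rw [pow_mul, Nat.pow_mod]; norm_num
    have h := ncard_mod_three hm
    rw [card_squarePairs_five_pow] at h
    suffices he : (fun v : ℤ × ℤ => (3 * v.1 - 1, 3 * v.2)) ''
        {v : ℤ × ℤ | ((v.1 : ℝ) - 1 / 3) ^ 2 + ((v.2 : ℝ) - 0) ^ 2 =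
          (√((5 : ℝ) ^ (2 * k)) / 3) ^ 2} =
        {v : ℤ × ℤ | v.1 ^ 2 + v.2 ^ 2 = ((5 ^ (2 * k) : ℕ) : ℤ) ∧ v.1 % 3 = 2 ∧ v.2 % 3 = 0} by
      rw [← he, Set.ncard_image_of_injective] at h
      · omega
      · intro v w e
        simp only [Prod.mk.injEq] at e
        exact Prod.ext (by omega) (by omega)
    ext ⟨x, y⟩
    simp only [Set.mem_image, Set.mem_ofPred_eq, Prod.mk.injEq, div_pow,
      Real.sq_sqrt (show (0 : ℝ) ≤ 5 ^ (2 * k) by positivity)]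
    constructor
    · rintro ⟨⟨a, b⟩, hab, rfl, rfl⟩
      refine ⟨?_, by omega, by omega⟩
      rw [← @Int.cast_inj ℝ]
      push_cast
      linear_combination 9 * hab
    · rintro ⟨hxy, hx, hy⟩
      obtain ⟨a, rfl⟩ : ∃ a, x = 3 * a - 1 := ⟨(x + 1) / 3, by omega⟩
      obtain ⟨b, rfl⟩ : ∃ b, y = 3 * b := ⟨y / 3, by omega⟩
      refine ⟨⟨a, b⟩, ?_, rfl, rfl⟩
      rw [← @Int.cast_inj ℝ] at hxy
      push_cast at hxy
      linear_combination hxy / 9

/-- Bambah and Chowla. -/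
theorem bambah_chowla (N : ℕ) : ∃ a b : ℕ, N ≤ a ^ 2 + b ^ 2 ∧
    ((a ^ 2 + b ^ 2 : ℕ) : ℝ) ≤ N + 2 * √2 * √(√N) + 1 := by
  set a := Nat.sqrt N
  have h1 : a ^ 2 ≤ N := Nat.sqrt_le' N
  have h2 : N ≤ a ^ 2 + 2 * a := by
    have h : N < (a + 1) ^ 2 := Nat.lt_succ_sqrt' N
    rw [add_sq] at h
    omega
  obtain ⟨m, hm⟩ := Nat.exists_eq_add_of_le h1
  set b := Nat.sqrt m
  have hb1 : b ^ 2 ≤ m := Nat.sqrt_le' m
  have hb2 : m ≤ (b + 1) ^ 2 := (Nat.lt_succ_sqrt' m).le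
  refine ⟨a, b + 1, by omega, ?_⟩
  have ha : (a : ℝ) ≤ √N := Real.le_sqrt_of_sq_le (by exact_mod_cast h1)
  have hb : (b : ℝ) ≤ √2 * √(√N) := by
    rw [← Real.sqrt_mul (by norm_num)]
    refine Real.le_sqrt_of_sq_le ?_
    have : (b : ℝ) ^ 2 ≤ 2 * a := by exact_mod_cast (by omega : b ^ 2 ≤ 2 * a)
    linarith
  have hN : (N : ℝ) = (a : ℝ) ^ 2 + m := by exact_mod_cast hm
  have hb' : (b : ℝ) ^ 2 ≤ m := by exact_mod_cast hb1
  push_cast
  linarith [show ((b : ℝ) + 1) ^ 2 = (b : ℝ) ^ 2 + 2 * b + 1 by ring]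

end FA.LatticeCircles
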